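/-
Project BAD, layer L-MOD, block CUSP, node CUSP-0 (helper129): elementary facts on
`eps q c S T = ∑_{a, b ≤ q} c a b S^a T^b`.
-/
import Mathlib
import Fermat.Agent.S18.Defs
import Fermat.Agent.S36.BP.Defs
import Fermat.Agent.S36.BP.Rad
import Fermat.Agent.BAD.Model.Defs

set_option autoImplicit false

noncomputable section

namespace Fermat.Agent.BAD.Model

open Fermat.Agent.S18 Fermat.Agent.S36.BP IntermediateField Polynomial

variable {K₀ F : Type*} [Field K₀] [Field F] [Algebra K₀ F]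
variable {A₀ : ValuationSubring K₀} {q : ℕ} {x : F} {V : Fin 3 → ValuationSubring F} {ϖm : F}

variable {R : Subring F} {c : ℕ → ℕ → K₀} {S S' T s s' s'' : F}

theorem eps_swap (q : ℕ) (c : ℕ → ℕ → K₀) (S T : F) :
    eps q (fun a b => c b a) T S = eps q c S T := by
  unfold eps
  rw [Finset.sum_comm]
  refine Finset.sum_congr rfl fun a _ => Finset.sum_congr rfl fun b _ => ?_
  ring

theorem Rel.symm (h : Rel q c S T) : Rel q (fun a b => c b a) T S := by
  unfold Rel at h ⊢
  rw [eps_swap, ← h]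
  ring

theorem eps_mem (hc : ∀ a b, algebraMap K₀ F (c a b) ∈ R) (hS : S ∈ R) (hT : T ∈ R) :
    eps q c S T ∈ R := by
  unfold eps
  exact Subring.sum_mem R fun a _ => Subring.sum_mem R fun b _ =>
    R.mul_mem (R.mul_mem (hc a b) (R.pow_mem hS a)) (R.pow_mem hT b)

/-- congruences modulo `rad R` can be summed. -/
theorem cr_sum (hR : IsPt A₀ R) {ι : Type*} (t : Finset ι) (f g : ι → F)
    (h : ∀ i ∈ t, Cr R (f i) (g i)) : Cr R (∑ i ∈ t, f i) (∑ i ∈ t, g i) := by
  classical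
  induction t using Finset.induction_on with
  | empty => simpa using Cr.refl R 0
  | insert i t hi ih =>
    rw [Finset.sum_insert hi, Finset.sum_insert hi]
    exact hR.cr_add (h i (Finset.mem_insert_self i t))
      (ih fun j hj => h j (Finset.mem_insert_of_mem hj))

theorem eps_zero_zero (q : ℕ) (c : ℕ → ℕ → K₀) :
    eps q c (0 : F) 0 = algebraMap K₀ F (c 0 0) := by
  unfold eps
  rw [Finset.sum_eq_single 0, Finset.sum_eq_single 0]
  · simp
  · intro b _ hb
    simp [hb]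
  · intro h
    exact absurd (Finset.mem_range.mpr (Nat.succ_pos q)) h
  · intro a _ ha
    refine Finset.sum_eq_zero fun b _ => ?_
    simp [ha]
  · intro h
    exact absurd (Finset.mem_range.mpr (Nat.succ_pos q)) h

/-- `eps` respects congruences modulo `rad R`. -/
theorem cr_eps (hR : IsPt A₀ R) (hc : ∀ a b, c a b ∈ A₀) {S₁ T₁ : F} (hS : Cr R S S₁)
    (hT : Cr R T T₁) (hS₁ : S₁ ∈ R) (hT₁ : T₁ ∈ R) : Cr R (eps q c S T) (eps q c S₁ T₁) := by
  have hTR : T ∈ R := hT.mem hT₁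
  unfold eps
  refine cr_sum hR _ _ _ fun a _ => cr_sum hR _ _ _ fun b _ => ?_
  have hcm : algebraMap K₀ F (c a b) ∈ R := hR.const_mem _ (hc a b)
  exact hR.cr_mul ((hR.cr_pow hS hS₁ a).mul_left hcm) (hR.cr_pow hT hT₁ b)
    (R.mul_mem hcm (R.pow_mem hS₁ a)) (R.pow_mem hTR b)

theorem rUnit_eps (hR : IsPt A₀ R) (hc : ∀ a b, c a b ∈ A₀) (h0 : A₀.valuation (c 0 0) = 1)
    (hS : S ∈ rad R) (hT : T ∈ rad R) : RUnit R (eps q c S T) := by
  have hS0 : Cr R S 0 := by rw [cr_def, sub_zero]; exact hS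
  have hT0 : Cr R T 0 := by rw [cr_def, sub_zero]; exact hT
  have h := cr_eps (q := q) hR hc hS0 hT0 R.zero_mem R.zero_mem
  rw [eps_zero_zero] at h
  exact hR.runit_of_cr h (hR.runit_const h0)

theorem exists_eps_sub_eps (hc : ∀ a b, algebraMap K₀ F (c a b) ∈ R) (hS : S ∈ R) (hS' : S' ∈ R)
    (hT : T ∈ R) : ∃ D ∈ R, eps q c S T - eps q c S' T = (S - S') * D := by
  refine ⟨∑ a ∈ Finset.range (q + 1), ∑ b ∈ Finset.range (q + 1),
    algebraMap K₀ F (c a b) * (∑ i ∈ Finset.range a, S ^ i * S' ^ (a - 1 - i)) * T ^ b, ?_, ?_⟩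
  · exact Subring.sum_mem R fun a _ => Subring.sum_mem R fun b _ =>
      R.mul_mem (R.mul_mem (hc a b) (Subring.sum_mem R fun i _ =>
        R.mul_mem (R.pow_mem hS i) (R.pow_mem hS' _))) (R.pow_mem hT b)
  · unfold eps
    rw [← Finset.sum_sub_distrib, Finset.mul_sum]
    refine Finset.sum_congr rfl fun a _ => ?_
    rw [← Finset.sum_sub_distrib, Finset.mul_sum]
    refine Finset.sum_congr rfl fun b _ => ?_
    have h := (Commute.all S S').mul_geom_sum₂ a
    calc algebraMap K₀ F (c a b) * S ^ a * T ^ b - algebraMap K₀ F (c a b) * S' ^ a * T ^ b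
        = algebraMap K₀ F (c a b) * (S ^ a - S' ^ a) * T ^ b := by ring
      _ = algebraMap K₀ F (c a b)
            * ((S - S') * ∑ i ∈ Finset.range a, S ^ i * S' ^ (a - 1 - i)) * T ^ b := by rw [h]
      _ = _ := by ring

end Fermat.Agent.BAD.Model
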