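/-
Project BAD, layer L-MOD, block CUSP, node CUSP-1 (sub-architect helper38; proof helper249).
`Rel.mem_rad`: if `S = 1/j` lies in the maximal ideal of the point `R`, so does `T = 1/j'`.
-/
import Mathlib
import Fermat.Agent.S18.Defs
import Fermat.Agent.S36.BP.Defs
import Fermat.Agent.S36.BP.Rad
import Fermat.Agent.BAD.Model.Defs

set_option autoImplicit false

noncomputable section

namespace Fermat.Agent.BAD.Model

open Fermat.Agent.S18 Fermat.Agent.S36.BP IntermediateField Polynomial

variable {K₀ F : Type*} [Field K₀] [Field F] [Algebra K₀ F]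
variable {A₀ : ValuationSubring K₀} {q : ℕ} {x : F} {V : Fin 3 → ValuationSubring F} {ϖm : F}
variable {R : Subring F} {c : ℕ → ℕ → K₀} {S S' T s s' s'' : F}

/-- A finite sum of elements of `rad R` lies in `rad R`. -/
theorem memRad_sum (hR : IsPt A₀ R) {ι : Type*} (t : Finset ι) (f : ι → F)
    (h : ∀ i ∈ t, f i ∈ rad R) : ∑ i ∈ t, f i ∈ rad R := by
  classical
  induction t using Finset.induction_on with
  | empty => simpa using zero_mem_rad R
  | insert a t ha ih =>
    rw [Finset.sum_insert ha]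
    exact hR.add_rad _ (h a (Finset.mem_insert_self a t)) _
      (ih fun i hi => h i (Finset.mem_insert_of_mem hi))

/-- A root of a polynomial over `R` with unit leading coefficient lies in `R`. -/
theorem memRad_mem_of_root (hR : IsPt A₀ R) {n : ℕ} {lam : F} (hlam : RUnit R lam) (g : ℕ → F)
    (hg : ∀ i, g i ∈ R) (h : lam * T ^ n + ∑ i ∈ Finset.range n, g i * T ^ i = 0) : T ∈ R := by
  apply hR.intClosed
  let g' : Fin n → R := fun i => ⟨lam⁻¹ * g i, R.mul_mem hlam.inv_mem (hg i)⟩
  refine ⟨X ^ n + ∑ i : Fin n, C (g' i) * X ^ (i : ℕ),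
    monic_X_pow_add (degree_sum_fin_lt g'), ?_⟩
  simp only [eval₂_add, eval₂_pow, eval₂_X, eval₂_finsetSum, eval₂_mul, eval₂_C]
  have h1 : ∑ i : Fin n, (algebraMap R F) (g' i) * T ^ (i : ℕ) =
      lam⁻¹ * ∑ i ∈ Finset.range n, g i * T ^ i := by
    rw [Finset.mul_sum, Finset.sum_range]
    refine Finset.sum_congr rfl fun i _ => ?_
    change lam⁻¹ * g i * T ^ (i : ℕ) = _
    ring
  rw [h1]
  have h2 : ∑ i ∈ Finset.range n, g i * T ^ i = -(lam * T ^ n) := by
    linear_combination h
  rw [h2]
  have := hlam.1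
  field_simp
  ring

theorem Rel.mem_rad (hR : IsPt A₀ R) (hc : ∀ a b, c a b ∈ A₀) (h : Rel q c S T)
    (hS : S ∈ rad R) : T ∈ rad R := by
  -- the coefficients `p b = ∑ a, c a b S^(a+1)`
  let p : ℕ → F := fun b => ∑ a ∈ Finset.range (q + 1), algebraMap K₀ F (c a b) * S ^ (a + 1)
  have hp : ∀ b, p b ∈ rad R := fun b => memRad_sum hR _ _ fun a _ => by
    rw [pow_succ, ← mul_assoc]
    exact mul_mem_rad (R.mul_mem (hR.const_mem _ (hc a b)) (R.pow_mem hS.1 a)) hS
  have hSq : S ^ (q + 1) ∈ rad R := by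
    rw [pow_succ]; exact mul_mem_rad (R.pow_mem hS.1 q) hS
  have hexp : S * T * eps q c S T = ∑ b ∈ Finset.range (q + 1), p b * T ^ (b + 1) := by
    simp only [eps, p]
    rw [Finset.sum_comm, Finset.mul_sum]
    refine Finset.sum_congr rfl fun b _ => ?_
    rw [Finset.mul_sum, Finset.sum_mul]
    refine Finset.sum_congr rfl fun a _ => ?_
    ring
  have hrel : S ^ (q + 1) + T ^ (q + 1) + ∑ b ∈ Finset.range (q + 1), p b * T ^ (b + 1) = 0 := by
    rw [← hexp]; exact h
  rw [Finset.sum_range_succ] at hrel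
  -- the leading coefficient
  have hlam : RUnit R (1 + p q) := by
    refine hR.runit_of_cr (b := 1) ?_ (RUnit.one R)
    unfold Cr
    have : 1 + p q - 1 = p q := by ring
    rw [this]; exact hp q
  -- the lower coefficients
  let g : ℕ → F := fun i => Nat.casesOn i (S ^ (q + 1)) (fun b => p b)
  have hg : ∀ i, g i ∈ rad R := fun i => by
    cases i with
    | zero => exact hSq
    | succ b => exact hp b
  have hsum : ∑ i ∈ Finset.range (q + 1), g i * T ^ i =
      ∑ b ∈ Finset.range q, p b * T ^ (b + 1) + S ^ (q + 1) := by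
    rw [Finset.sum_range_succ']
    simp [g]
  have hroot : (1 + p q) * T ^ (q + 1) + ∑ i ∈ Finset.range (q + 1), g i * T ^ i = 0 := by
    rw [hsum]; linear_combination hrel
  have hT : T ∈ R := memRad_mem_of_root hR hlam g (fun i => (hg i).1) hroot
  rcases runit_or_mem_rad hT with hu | hr
  · exfalso
    have h1 : RUnit R ((1 + p q) * T ^ (q + 1)) := hlam.mul (hu.pow _)
    have h2 : (1 + p q) * T ^ (q + 1) ∈ rad R := by
      have : (1 + p q) * T ^ (q + 1) = -∑ i ∈ Finset.range (q + 1), g i * T ^ i := by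
        linear_combination hroot
      rw [this]
      refine neg_mem_rad (memRad_sum hR _ _ fun i _ => ?_)
      rw [mul_comm]
      exact mul_mem_rad (R.pow_mem hT i) (hg i)
    exact h2.2 h1
  · exact hr

end Fermat.Agent.BAD.Model
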