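/-
Project BAD, layer L-MOD, block CUSP, node CUSP-2 (helper29): the dichotomy at a cuspidal point for
one modular equation, and the trichotomy of cuspidal points at level `q²`.
-/
import Mathlib
import Fermat.Agent.S18.Defs
import Fermat.Agent.S36.BP.Defs
import Fermat.Agent.S36.BP.Rad
import Fermat.Agent.BAD.Model.Defs
import Fermat.Agent.BAD.Model.Cusp.Eps
import Fermat.Agent.BAD.Model.Cusp.MemRad

set_option autoImplicit false

noncomputable section

namespace Fermat.Agent.BAD.Model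

open Fermat.Agent.S18 Fermat.Agent.S36.BP IntermediateField Polynomial

variable {K₀ F : Type*} [Field K₀] [Field F] [Algebra K₀ F]
variable {A₀ : ValuationSubring K₀} {q : ℕ} {x : F} {V : Fin 3 → ValuationSubring F} {ϖm : F}

variable {R : Subring F} {c : ℕ → ℕ → K₀} {S S' T s s' s'' : F}

/-- a root of `X² + e X + p`, `e, p ∈ R`, lies in `R`. -/
theorem mem_of_quadratic (hR : IsPt A₀ R) {y e p : F} (he : e ∈ R) (hp : p ∈ R)
    (h : y ^ 2 + e * y + p = 0) : y ∈ R := by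
  apply hR.intClosed
  refine ⟨X ^ 2 + C (⟨e, he⟩ : R) * X + C (⟨p, hp⟩ : R), ?_, ?_⟩
  · have h1 : (X ^ 2 + C (⟨e, he⟩ : R) * X + C (⟨p, hp⟩ : R)) =
        X ^ 2 + (C (⟨e, he⟩ : R) * X + C (⟨p, hp⟩ : R)) := by ring
    rw [h1]
    apply monic_X_pow_add
    exact lt_of_le_of_lt degree_linear_le (by norm_num)
  · simp only [eval₂_add, eval₂_mul, eval₂_pow, eval₂_X, eval₂_C]
    exact h

theorem Rel.dichotomy (hR : IsPt A₀ R) (hq : 2 ≤ q) (hc : ∀ a b, c a b ∈ A₀)
    (h0 : A₀.valuation (c 0 0) = 1) (h : Rel q c S T) (hS0 : S ≠ 0) (hT0 : T ≠ 0)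
    (hS : S ∈ rad R) :
    (RUnit R (S ^ q / T) ∧ T ^ q / S ∈ rad R) ∨ (RUnit R (T ^ q / S) ∧ S ^ q / T ∈ rad R) := by
  have hT : T ∈ rad R := h.mem_rad hR hc hS
  have hε : RUnit R (eps q c S T) := rUnit_eps hR hc h0 hS hT
  set ε := eps q c S T with hεdef
  unfold Rel at h
  rw [← hεdef] at h
  obtain ⟨k, rfl⟩ : ∃ k, q = k + 2 := ⟨q - 2, by omega⟩
  have hsum : T ^ (k + 2) / S + S ^ (k + 2) / T = -ε := by
    field_simp
    linear_combination h
  have hprod : T ^ (k + 2) / S * (S ^ (k + 2) / T) = (S * T) ^ (k + 1) := by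
    field_simp
    ring
  have hST : S * T ∈ rad R := mul_mem_rad hS.1 hT
  have hp : (S * T) ^ (k + 1) ∈ rad R := by
    rw [pow_succ]
    exact mul_mem_rad (R.pow_mem hST.1 k) hST
  have hτ : T ^ (k + 2) / S ∈ R := by
    refine mem_of_quadratic hR hε.mem hp.1 ?_
    rw [← hprod]
    linear_combination (T ^ (k + 2) / S) * hsum
  have hτ' : S ^ (k + 2) / T ∈ R := by
    refine mem_of_quadratic hR hε.mem hp.1 ?_
    rw [← hprod]
    linear_combination (S ^ (k + 2) / T) * hsum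
  rcases runit_or_mem_rad hτ' with hu' | hr'
  · left
    refine ⟨hu', ?_⟩
    rcases runit_or_mem_rad hτ with hu | hr
    · exfalso
      apply hp.2
      rw [← hprod]
      exact hu.mul hu'
    · exact hr
  · right
    refine ⟨?_, hr'⟩
    rcases runit_or_mem_rad hτ with hu | hr
    · exact hu
    · exfalso
      have h1 := hR.add_rad _ hr _ hr'
      rw [hsum] at h1
      exact h1.2 hε.neg

theorem away_of_mem_rad (hR : IsPt A₀ R) {W : ValuationSubring F} {e : F} (he : e ∈ rad R)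
    (hW : W.valuation (e - 1) < 1) : Away R W := by
  refine ⟨e - 1, ?_, hW⟩
  refine hR.runit_of_cr (b := -1) ?_ (RUnit.one R).neg
  unfold Cr
  have : e - 1 - -1 = e := by ring
  rw [this]
  exact he

theorem CuspData.trichotomy (hq : 2 ≤ q) (hR : PtBase A₀ q V R) (D : CuspData A₀ q V c s s' s'')
    (hs : s ∈ rad R) :
    Type0 V R q s s' s'' ∨ Type1 V R q s s' s'' ∨ Type2 V R q s s' s'' := by
  have hP := hR.isPt
  have hs' : s' ∈ rad R := D.rel.mem_rad hP D.coeff_mem hs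
  have hs'' : s'' ∈ rad R := D.rel''.symm.mem_rad hP (fun a b => D.coeff_mem b a) hs'
  rcases D.rel.dichotomy hP hq D.coeff_mem D.coeff_unit D.ne D.ne' hs with ⟨a1, a2⟩ | ⟨a1, a2⟩
  · have hA2 : Away R (V 2) := away_of_mem_rad hP a2 D.cong2
    rcases D.rel''.dichotomy hP hq D.coeff_mem D.coeff_unit D.ne'' D.ne' hs'' with
      ⟨b1, b2⟩ | ⟨b1, b2⟩
    · exact Or.inr (Or.inl ⟨a1, b1, away_of_mem_rad hP b2 D.cong0', hA2⟩)
    · exact Or.inl ⟨a1, b1, away_of_mem_rad hP b2 D.cong1', hA2⟩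
  · have hA0 : Away R (V 0) := away_of_mem_rad hP a2 D.cong0
    have hA1 : Away R (V 1) := away_of_mem_rad hP a2 D.cong1
    rcases D.rel''.dichotomy hP hq D.coeff_mem D.coeff_unit D.ne'' D.ne' hs'' with
      ⟨b1, b2⟩ | ⟨b1, b2⟩
    · exact Or.inr (Or.inr ⟨a1, b1, hA0, hA1⟩)
    · exfalso
      apply hR.not_all_away
      intro i
      fin_cases i
      · exact hA0
      · exact hA1
      · exact away_of_mem_rad hP b2 D.cong2'

end Fermat.Agent.BAD.Model
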