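/-
Project BAD, layer L-MOD, block CUSP, node CUSP-3 (owner helper80):
`GoodBelow.through`, `princ_of_unram`.
-/
import Mathlib
import Fermat.Agent.S18.Defs
import Fermat.Agent.S18.Chart.Unif
import Fermat.Agent.S36.BP.Defs
import Fermat.Agent.S36.BP.Rad
import Fermat.Agent.BAD.Model.Defs

set_option autoImplicit false

noncomputable section

namespace Fermat.Agent.BAD.Model

open Fermat.Agent.S18 Fermat.Agent.S36.BP IntermediateField Polynomial

variable {K₀ F : Type*} [Field K₀] [Field F] [Algebra K₀ F]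
variable {A₀ : ValuationSubring K₀} {q : ℕ} {x : F} {V : Fin 3 → ValuationSubring F} {ϖm : F}
variable {R : Subring F} {c : ℕ → ℕ → K₀} {S S' T s s' s'' : F}

theorem GoodBelow.through (hR : IsPt A₀ R) {W : ValuationSubring F} {E : Subfield F}
    (hL : LeLoc R W) (hG : GoodBelow W E R) : Through R W := by
  refine ⟨hL.1, hL.2, ?_⟩
  obtain ⟨t, ht, hdvr⟩ := hG.dvr
  refine ⟨t, ht, fun y hy => ?_⟩
  have hyW : y ∈ W := hL.1 y hy.1
  rcases lt_or_eq_of_le (mem_iff_val_le.1 hyW) with hlt | heq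
  · exact ⟨0, R.zero_mem, by rwa [zero_mul, sub_zero]⟩
  obtain ⟨y', hy'E, hy'⟩ := hG.dense y hyW
  have hcg : Cg W y' y := hy'
  have hy'1 : W.valuation y' = 1 := hcg.val_eq_one heq
  obtain ⟨η, hηR, hηE, hη | hη⟩ := hG.branch y' hy'E hy'1
  · have h1 : Cg W η y := (Cg.symm (show Cg W y' η from hη)).trans hcg
    have h2 : η - y ∈ rad R := mem_rad_of_val_lt hL.1 (R.sub_mem hηR hy.1) h1
    have h3 : η ∈ rad R := by
      have : η = (η - y) + y := by ring
      rw [this]
      exact hR.add_rad _ h2 _ hy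
    obtain ⟨r, hr, hrt⟩ := hdvr η h3 hηE
    exact ⟨r, hr, (h1.symm.trans (show Cg W η (r * t) from hrt))⟩
  · exfalso
    have h1 : Cg W η y⁻¹ := (Cg.symm (show Cg W y'⁻¹ η from hη)).trans (hcg.inv heq)
    have hy0 : y ≠ 0 := ne_zero_of_val_eq_one heq
    have h2 : Cg W (η * y) 1 := by
      have := h1.mul_right (c := y) heq.le
      rwa [inv_mul_cancel₀ hy0] at this
    have h3 : η * y - 1 ∈ rad R :=
      mem_rad_of_val_lt hL.1 (R.sub_mem (R.mul_mem hηR hy.1) R.one_mem) h2
    have h4 : η * y ∈ rad R := mul_mem_rad hηR hy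
    have h5 : (1 : F) ∈ rad R := by
      have : (1 : F) = η * y + -(η * y - 1) := by ring
      rw [this]
      exact hR.add_rad _ h4 _ (neg_mem_rad h3)
    exact h5.2 (RUnit.one R)

theorem princ_of_unram (hR : PtBase A₀ q V R) (i : Fin 3) (hU : IsUnif (V i) (q : F))
    (hA : ∀ i', i' ≠ i → Away R (V i')) : Princ R (V i) := by
  have hq0 : (q : F) ≠ 0 := hU.ne_zero
  have hqlt : (V i).valuation (q : F) < 1 := by
    rcases lt_or_eq_of_le (mem_iff_val_le.1 hU.mem) with h | h
    · exact h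
    · exact absurd (mem_iff_val_le.2 (val_inv_eq_one h).le) hU.inv_notMem
  refine ⟨(q : F), natCast_mem R q, hq0, hqlt, fun y hy hylt => ?_⟩
  apply hR.qep
  · rw [mul_div_cancel₀ _ hq0]
    exact hy
  · intro c
    by_cases hc : c = i
    · subst hc
      left
      by_cases hy0 : y = 0
      · rw [hy0, zero_div]; exact (V c).zero_mem
      apply hU.div_mem (mem_iff_val_le.2 hylt.le)
      intro hinv
      have h1 := mem_iff_val_le.1 hinv
      rw [map_inv₀] at h1
      have hv : (V c).valuation y ≠ 0 := (Valuation.ne_zero_iff _).2 hy0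
      have h2 := (inv_le_one₀ (zero_lt_iff.2 hv)).1 h1
      exact absurd hylt (not_lt.2 h2)
    · exact Or.inr (hA c hc)

end Fermat.Agent.BAD.Model
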