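/-
Project BAD, layer L-MOD, block CUSP, node CUSP-4 (sub-architect helper38; proof helper245).
`exists_binomial_poly`: `(1 + X)^q - 1 = X (X^(q-1) + q U)` with `U(0) = 1`;
`key_identity`: subtract the two modular equations `Φ(s, s') = 0 = Φ(s'', s')`.
-/
import Mathlib
import Fermat.Agent.BAD.Model.Defs

set_option autoImplicit false

noncomputable section

namespace Fermat.Agent.BAD.Model

open Fermat.Agent.S18 Fermat.Agent.S36.BP IntermediateField Polynomial

variable {K₀ F : Type*} [Field K₀] [Field F] [Algebra K₀ F]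
variable {A₀ : ValuationSubring K₀} {q : ℕ} {x : F} {V : Fin 3 → ValuationSubring F} {ϖm : F}
variable {R : Subring F} {c : ℕ → ℕ → K₀} {S S' T s s' s'' : F}

/-- the coefficients of `(1 + X)^q - 1 - X^q`. -/
theorem coeff_binomial_aux (q i : ℕ) :
    ((1 + X : ℤ[X]) ^ q - 1 - X ^ q).coeff i =
      (q.choose i : ℤ) - (if i = 0 then 1 else 0) - (if i = q then 1 else 0) := by
  rw [coeff_sub, coeff_sub, coeff_one_add_X_pow, coeff_one, coeff_X_pow]

theorem exists_binomial_poly (hq : q.Prime) :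
    ∃ U : ℤ[X], (1 + X) ^ q - 1 = X * (X ^ (q - 1) + C (q : ℤ) * U) ∧ U.eval 0 = 1 := by
  have hq0 : q ≠ 0 := hq.ne_zero
  have hq1 : q ≠ 1 := hq.ne_one
  have h1 : C (q : ℤ) ∣ ((1 + X : ℤ[X]) ^ q - 1 - X ^ q) := by
    rw [C_dvd_iff_dvd_coeff]
    intro i
    rw [coeff_binomial_aux]
    rcases Nat.eq_zero_or_pos i with rfl | hi
    · simp [hq0.symm]
    rcases lt_trichotomy i q with hlt | rfl | hgt
    · rw [if_neg hi.ne', if_neg hlt.ne, sub_zero, sub_zero]
      exact_mod_cast hq.dvd_choose_self hi.ne' hlt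
    · simp [hq0]
    · rw [if_neg hi.ne', if_neg hgt.ne', Nat.choose_eq_zero_of_lt hgt]
      simp
  obtain ⟨P, hP⟩ := h1
  have hqZ : (q : ℤ) ≠ 0 := by exact_mod_cast hq0
  have hP0 : P.coeff 0 = 0 := by
    have h2 := congrArg (fun p => coeff p 0) hP
    simp only [coeff_binomial_aux, coeff_C_mul] at h2
    simp [hq0.symm] at h2
    rcases h2 with h2 | h2
    · exact absurd h2 hq0
    · exact h2
  obtain ⟨U, hU⟩ := X_dvd_iff.2 hP0
  refine ⟨U, ?_, ?_⟩
  · have h3 : (X : ℤ[X]) ^ q = X * X ^ (q - 1) := by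
      rw [← pow_succ', Nat.sub_add_cancel hq.one_le]
    rw [hU] at hP
    linear_combination hP + h3
  · have h2 := congrArg (fun p => coeff p 1) hP
    simp only [coeff_binomial_aux, coeff_C_mul] at h2
    rw [hU, coeff_X_mul, if_neg one_ne_zero, if_neg hq1.symm, Nat.choose_one_right, sub_zero,
      sub_zero] at h2
    rw [← coeff_zero_eq_eval_zero]
    exact (mul_left_cancel₀ hqZ (by rw [mul_one]; exact h2)).symm

/-- the key identity: subtract the two modular equations `Φ(s, s') = 0 = Φ(s'', s')`. -/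
theorem key_identity (hs : s ≠ 0) (hs' : s' ≠ 0) (hs'' : s'' ≠ 0) (hne : s ≠ s'')
    (h : Rel q c s s') (h'' : Rel q c s'' s') {D u : F}
    (hD : eps q c s s' - eps q c s'' s' = (s - s'') * D)
    (hu : (s / s'') ^ q - 1 = (s / s'' - 1) * ((s / s'' - 1) ^ (q - 1) + (q : F) * u)) :
    s'' ^ q / s' * ((s / s'' - 1) ^ (q - 1) + (q : F) * u) = s' ^ q / s - s'' * D := by
  unfold Rel at h h''
  generalize eps q c s s' = e1 at h hD
  generalize eps q c s'' s' = e2 at h'' hD
  generalize (s / s'' - 1) ^ (q - 1) + (q : F) * u = Z at hu ⊢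
  have hne' : s - s'' ≠ 0 := sub_ne_zero.2 hne
  have hC : s'' ^ q ≠ 0 := pow_ne_zero _ hs''
  have hu' : (s ^ q - s'' ^ q) * s'' = (s - s'') * Z * s'' ^ q := by
    have e1 : (s ^ q - s'' ^ q) * s'' = ((s / s'') ^ q - 1) * (s'' ^ q * s'') := by
      rw [div_pow]; field_simp
    have e2 : (s - s'') * Z * s'' ^ q = ((s / s'' - 1) * Z) * (s'' ^ q * s'') := by
      field_simp
    rw [e1, e2, hu]
  have key : (s - s'') * (s'' ^ q * Z * s) = (s - s'') * ((s' ^ q - s'' * D * s) * s') := by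
    linear_combination (-s) * hu' + s'' * h - s * h'' - s * s' * s'' * hD
  have key' := mul_left_cancel₀ hne' key
  rw [div_mul_eq_mul_div, div_eq_iff hs', sub_mul, div_mul_eq_mul_div, eq_sub_iff_add_eq,
    eq_div_iff hs]
  linear_combination key'

end Fermat.Agent.BAD.Model
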