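/-
Project BAD, layer L-MOD, node CUSP-6 (helper38): the cusp theorem `CuspData.ptHyp` (every closed
point of the special fibre at which `1/j` vanishes satisfies `PtHyp`), and the reduction of the field
`pts₂` of `S36.BP.Model` to `pts₁` and the points at which the coordinate has a pole.
-/
import Mathlib
import Fermat.Agent.BAD.Model.Defs
import Fermat.Agent.BAD.Model.Cusp.Dichotomy
import Fermat.Agent.BAD.Model.Cusp.Through
import Fermat.Agent.BAD.Model.Cusp.Mid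
import Fermat.Agent.BAD.Model.Pre.Overlap

set_option autoImplicit false

noncomputable section

namespace Fermat.Agent.BAD.Model

open Fermat.Agent.S18 Fermat.Agent.S36.BP IntermediateField Polynomial

variable {K₀ F : Type*} [Field K₀] [Field F] [Algebra K₀ F]
variable {A₀ : ValuationSubring K₀} {q : ℕ} {x : F} {V : Fin 3 → ValuationSubring F} {ϖm : F}
variable {R : Subring F} {c : ℕ → ℕ → K₀} {s s' s'' : F}

/-- **The cusp theorem**, with `Through` as a hypothesis. -/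
theorem CuspData.ptHyp' (hb : BaseHyp A₀ q) (hU0 : IsUnif (V 0) (q : F)) (hU1 : IsUnif (V 1) ϖm)
    (hU2 : IsUnif (V 2) (q : F))
    (hram : (V 1).valuation ϖm ^ (q - 1) = (V 1).valuation (q : F))
    (hR : PtBase A₀ q V R) (D : CuspData A₀ q V c s s' s'') (hs : s ∈ rad R)
    (hT : ∀ i, LeLoc R (V i) → Through R (V i))
    (Eα Eβ : Subfield F) (Nα Nβ : F →* F) : PtHyp V Eα Eβ Nα Nβ R := by
  have main : ∀ i : Fin 3, (∀ i', i' ≠ i → Away R (V i')) → Princ R (V i) →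
      PtHyp V Eα Eβ Nα Nβ R := by
    intro i hA hP
    have hL := hR.leLoc_of_away i hA
    have hT : Through R (V i) := hT i hL
    refine ⟨fun i' => ?_, ⟨i, hT, hP⟩, Or.inl ⟨i, hA⟩⟩
    by_cases hi : i' = i
    · exact Or.inl (hi ▸ hT)
    · exact Or.inr (hA i' hi)
  rcases D.trichotomy hb.prime.two_le hR hs with h | h | h
  · have hA : ∀ i', i' ≠ (0 : Fin 3) → Away R (V i') := by
      intro i' hi
      fin_cases i'
      · exact absurd rfl hi
      · exact h.2.2.1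
      · exact h.2.2.2
    exact main 0 hA (princ_of_unram hR 0 hU0 hA)
  · have hA : ∀ i', i' ≠ (1 : Fin 3) → Away R (V i') := by
      intro i' hi
      fin_cases i'
      · exact h.2.2.1
      · exact absurd rfl hi
      · exact h.2.2.2
    exact main 1 hA (h.princ hb hU1 hram hR D hs)
  · have hA : ∀ i', i' ≠ (2 : Fin 3) → Away R (V i') := by
      intro i' hi
      fin_cases i'
      · exact h.2.2.1
      · exact h.2.2.2
      · exact absurd rfl hi
    exact main 2 hA (princ_of_unram hR 2 hU2 hA)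

/-- **The cusp theorem.** -/
theorem CuspData.ptHyp (hb : BaseHyp A₀ q) (hU0 : IsUnif (V 0) (q : F)) (hU1 : IsUnif (V 1) ϖm)
    (hU2 : IsUnif (V 2) (q : F))
    (hram : (V 1).valuation ϖm ^ (q - 1) = (V 1).valuation (q : F))
    (hR : PtBase A₀ q V R) (D : CuspData A₀ q V c s s' s'') (hs : s ∈ rad R)
    (E : Fin 3 → Subfield F) (hG : ∀ i, LeLoc R (V i) → GoodBelow (V i) (E i) R)
    (Eα Eβ : Subfield F) (Nα Nβ : F →* F) : PtHyp V Eα Eβ Nα Nβ R :=
  D.ptHyp' hb hU0 hU1 hU2 hram hR hs (fun i hL => (hG i hL).through hR.isPt hL) Eα Eβ Nα Nβ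

/-- chart form: the field `pts₂` of `S36.BP.Model` from `pts₁` and the cusp theorem. -/
theorem PreModel.pts₂_of (P : PreModel A₀ q x V ϖm) (Eα Eβ : Subfield F) (Nα Nβ : F →* F)
    (h₁ : ∀ (𝔪 : Ideal (chart A₀.toSubring x)) [𝔪.IsMaximal], (q : chart A₀.toSubring x) ∈ 𝔪 →
      PtHyp V Eα Eβ Nα Nβ (locSub (chart A₀.toSubring x) 𝔪))
    (h₂ : ∀ (𝔫 : Ideal (chart A₀.toSubring x⁻¹)) [𝔫.IsMaximal],
      (q : chart A₀.toSubring x⁻¹) ∈ 𝔫 →
      (⟨x⁻¹, self_mem_chart _⟩ : chart A₀.toSubring x⁻¹) ∈ 𝔫 →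
      PtHyp V Eα Eβ Nα Nβ (locSub (chart A₀.toSubring x⁻¹) 𝔫))
    (𝔫 : Ideal (chart A₀.toSubring x⁻¹)) [𝔫.IsMaximal] (h𝔫 : (q : chart A₀.toSubring x⁻¹) ∈ 𝔫) :
    PtHyp V Eα Eβ Nα Nβ (locSub (chart A₀.toSubring x⁻¹) 𝔫) := by
  by_cases hx : (⟨x⁻¹, self_mem_chart _⟩ : chart A₀.toSubring x⁻¹) ∈ 𝔫
  · exact h₂ 𝔫 h𝔫 hx
  · obtain ⟨𝔪, h𝔪, hq, e⟩ := P.exists_point_of_inv_notMem 𝔫 h𝔫 hx
    rw [← e]
    exact h₁ 𝔪 hq

end Fermat.Agent.BAD.Model
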