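/-
Project BAD, layer L-MOD, node CUSP-5 (helper38): cuspidal points of the middle component.
At such a point `z = s / s'' - 1` satisfies `z ^ (q - 1) = q * unit`, and generates the vertical prime.
-/
import Mathlib
import Fermat.Agent.S36.BP.Rad
import Fermat.Agent.S36.BP.Approx
import Fermat.Agent.BAD.Model.Defs
import Fermat.Agent.BAD.Model.Cusp.Eps
import Fermat.Agent.BAD.Model.Cusp.MemRad
import Fermat.Agent.BAD.Model.Cusp.Identity

set_option autoImplicit false

noncomputable section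

namespace Fermat.Agent.BAD.Model

open Fermat.Agent.S18 Fermat.Agent.S36.BP IntermediateField Polynomial

variable {K₀ F : Type*} [Field K₀] [Field F] [Algebra K₀ F]
variable {A₀ : ValuationSubring K₀} {q : ℕ} {V : Fin 3 → ValuationSubring F} {ϖm : F}
variable {R : Subring F} {c : ℕ → ℕ → K₀} {s s' s'' : F}

theorem PtBase.leLoc_of_away (hR : PtBase A₀ q V R) (i : Fin 3)
    (hA : ∀ i', i' ≠ i → Away R (V i')) : LeLoc R (V i) := by
  rcases hR.leLoc_or_away i with h | h
  · exact h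
  · exfalso
    apply hR.not_all_away
    intro i'
    by_cases hi : i' = i
    · exact hi ▸ h
    · exact hA i' hi

/-- the value of an integral polynomial at an element of a subring lies in the subring. -/
theorem aeval_int_mem (U : ℤ[X]) {z : F} (hz : z ∈ R) : aeval z U ∈ R := by
  rw [aeval_eq_sum_range]
  exact R.sum_mem fun i _ => R.zsmul_mem (R.pow_mem hz i) _

theorem aeval_int_sub_mem_rad (U : ℤ[X]) (hU : U.eval 0 = 1) {z : F} (hz : z ∈ rad R) :
    aeval z U - 1 ∈ rad R := by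
  have h1 : U = divX U * X + C 1 := by
    conv_lhs => rw [← divX_mul_X_add U]
    rw [coeff_zero_eq_eval_zero, hU]
  have h2 : aeval z U - 1 = aeval z (divX U) * z := by
    conv_lhs => rw [h1]
    simp
  rw [h2]
  exact mul_mem_rad (aeval_int_mem _ hz.1) hz

theorem Type1.away (hT : Type1 V R q s s' s'') : ∀ i', i' ≠ (1 : Fin 3) → Away R (V i') := by
  intro i' hi
  fin_cases i'
  · exact hT.2.2.1
  · exact absurd rfl hi
  · exact hT.2.2.2

theorem Type1.unit (hb : BaseHyp A₀ q) (hU1 : IsUnif (V 1) ϖm)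
    (hram : (V 1).valuation ϖm ^ (q - 1) = (V 1).valuation (q : F))
    (hR : PtBase A₀ q V R) (D : CuspData A₀ q V c s s' s'') (hs : s ∈ rad R)
    (hT : Type1 V R q s s' s'') :
    s / s'' - 1 ∈ R ∧ (V 1).valuation (s / s'' - 1) < 1 ∧
      RUnit R ((s / s'' - 1) ^ (q - 1) / (q : F)) := by
  have hA := hT.away
  obtain ⟨hτ', hσ, hA0, hA2⟩ := hT
  have hP := hR.isPt
  have hq2 : 2 ≤ q := hb.prime.two_le
  have hq0 : q ≠ 0 := by omega
  have hle : ∀ r ∈ R, r ∈ V 1 := (hR.leLoc_of_away 1 hA).1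
  have hs0 := D.ne
  have hs'0 := D.ne'
  have hs''0 := D.ne''
  have hs' : s' ∈ rad R := D.rel.mem_rad hP D.coeff_mem hs
  have hs'' : s'' ∈ rad R := D.rel''.symm.mem_rad hP (fun a b => D.coeff_mem b a) hs'
  -- valuation of `q`
  have hvϖ : (V 1).valuation ϖm < 1 := approx_val_unif_lt_one hU1
  have hvq0 : (V 1).valuation (q : F) ≠ 0 := by
    rw [← hram]
    exact pow_ne_zero _ ((Valuation.ne_zero_iff _).mpr hU1.ne_zero)
  have hqF : (q : F) ≠ 0 := (Valuation.ne_zero_iff _).mp hvq0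
  have hvq : (V 1).valuation (q : F) < 1 := by
    rw [← hram]
    exact pow_lt_one₀ zero_le hvϖ (by omega)
  -- `y = s / s''` is a unit
  have hyq : (s / s'') ^ q = (s ^ q / s') / (s'' ^ q / s') := by
    rw [div_pow]
    field_simp
  have hyU : RUnit R (s / s'') := hP.runit_of_pow hq0 (hyq ▸ hτ'.div hσ)
  have hzR : s / s'' - 1 ∈ R := R.sub_mem hyU.mem R.one_mem
  -- the binomial polynomial
  obtain ⟨U, hU, hU0⟩ := exists_binomial_poly hb.prime
  have hu : (s / s'') ^ q - 1 = (s / s'' - 1) *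
      ((s / s'' - 1) ^ (q - 1) + (q : F) * aeval (s / s'' - 1) U) := by
    have h := congrArg (aeval (s / s'' - 1)) hU
    simp only [map_sub, map_pow, map_add, map_one, aeval_X, map_mul, eq_intCast,
      Int.cast_natCast, map_natCast] at h
    rw [← h]
    congr 2
    ring
  have huR : aeval (s / s'' - 1) U ∈ R := aeval_int_mem U hzR
  -- `z` lies in the maximal ideal of `V 1`
  have hyq1 : (V 1).valuation ((s / s'') ^ q - 1) < 1 := by
    have h : Cg (V 1) ((s ^ q / s') / (s'' ^ q / s')) (1 / 1) :=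
      Cg.div D.cong1 D.cong1' (by simp) (by simp)
    rw [hyq]
    simpa [Cg] using h
  have hzlt : (V 1).valuation (s / s'' - 1) < 1 := by
    by_contra hcon
    have h1 : (V 1).valuation (s / s'' - 1) = 1 :=
      le_antisymm (mem_iff_val_le.1 (hle _ hzR)) (not_lt.1 hcon)
    have h2 : (s / s'' - 1) ^ q = ((s / s'') ^ q - 1) -
        (q : F) * ((s / s'' - 1) * aeval (s / s'' - 1) U) := by
      rw [hu]
      have : (s / s'' - 1) ^ q = (s / s'' - 1) * (s / s'' - 1) ^ (q - 1) := by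
        rw [← pow_succ', Nat.sub_add_cancel (by omega)]
      rw [this]
      ring
    have h3 : (V 1).valuation ((s / s'' - 1) ^ q) < 1 := by
      rw [h2]
      refine lt_of_le_of_lt (Valuation.map_sub _ _ _) (max_lt hyq1 ?_)
      rw [map_mul]
      exact lt_of_le_of_lt (mul_le_of_le_one_right' (mem_iff_val_le.1
        (hle _ (R.mul_mem hzR huR)))) hvq
    rw [map_pow, h1, one_pow] at h3
    exact lt_irrefl _ h3
  have hzrad : s / s'' - 1 ∈ rad R := mem_rad_of_val_lt hle hzR hzlt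
  -- the key identity
  obtain ⟨D₀, hD₀R, hD₀⟩ := exists_eps_sub_eps (q := q) (c := c)
    (fun a b => hP.const_mem _ (D.coeff_mem a b)) hs.1 hs''.1 hs'.1
  have key := key_identity hs0 hs'0 hs''0 D.ne_s D.rel D.rel'' hD₀ hu
  -- `ω`
  have hρ : s' / s ∈ R := by
    have : s' / s = s ^ (q - 1) * (s ^ q / s')⁻¹ := by
      have h1 : s ^ q = s ^ (q - 1) * s := by rw [← pow_succ, Nat.sub_add_cancel (by omega)]
      rw [h1]
      field_simp
    rw [this]
    exact R.mul_mem (R.pow_mem hs.1 _) hτ'.inv_mem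
  set ω : F := (s'' ^ q / s')⁻¹ * ((s' / s) ^ 2 * s' ^ (q - 2) - (s / s'')⁻¹ * D₀) with hω
  have hωR : ω ∈ R :=
    R.mul_mem hσ.inv_mem (R.sub_mem (R.mul_mem (R.pow_mem hρ 2) (R.pow_mem hs'.1 _))
      (R.mul_mem hyU.inv_mem hD₀R))
  have hsω : (s / s'' - 1) ^ (q - 1) + (q : F) * aeval (s / s'' - 1) U = s * ω := by
    have h1 : s * ω = (s'' ^ q / s')⁻¹ * (s' ^ q / s - s'' * D₀) := by
      have h2 : s' ^ q = s' ^ 2 * s' ^ (q - 2) := by rw [← pow_add]; congr 1; omega
      rw [hω, h2]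
      field_simp
    rw [h1, ← key, inv_mul_cancel_left₀ hσ.ne_zero]
  -- `ω / q ∈ R`
  have hωq : ω / (q : F) ∈ V 1 := by
    rw [mem_iff_val_le, map_div₀, div_le_one₀ (zero_lt_iff.mpr hvq0)]
    have h1 : (V 1).valuation ω = (V 1).valuation (s * ω) := by
      rw [(V 1).valuation.map_mul s ω, D.unit 1, one_mul]
    rw [h1, ← hsω]
    refine le_trans (Valuation.map_add _ _ _) (max_le ?_ ?_)
    · rw [map_pow, ← hram]
      exact pow_le_pow_left₀ zero_le (approx_val_le_unif hU1 hzlt) _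
    · rw [map_mul]
      exact mul_le_of_le_one_right' (mem_iff_val_le.1 (hle _ huR))
  have hωqR : ω / (q : F) ∈ R := by
    apply hR.qep
    · rw [mul_div_cancel₀ _ hqF]
      exact hωR
    · intro i
      fin_cases i
      · exact Or.inr hA0
      · exact Or.inl hωq
      · exact Or.inr hA2
  -- conclusion
  refine ⟨hzR, hzlt, ?_⟩
  have hη : (s / s'' - 1) ^ (q - 1) / (q : F) - (-1) =
      s * (ω / (q : F)) + -(aeval (s / s'' - 1) U - 1) := by
    have : (s / s'' - 1) ^ (q - 1) = s * ω - (q : F) * aeval (s / s'' - 1) U := by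
      rw [← hsω]; ring
    rw [this]
    field_simp
    ring
  have hcr : Cr R ((s / s'' - 1) ^ (q - 1) / (q : F)) (-1) := by
    unfold Cr
    rw [hη]
    refine hP.add_rad _ ?_ _ (neg_mem_rad (aeval_int_sub_mem_rad U hU0 hzrad))
    rw [mul_comm]
    exact mul_mem_rad hωqR hs
  exact hP.runit_of_cr hcr (RUnit.one R).neg

theorem Type1.princ (hb : BaseHyp A₀ q) (hU1 : IsUnif (V 1) ϖm)
    (hram : (V 1).valuation ϖm ^ (q - 1) = (V 1).valuation (q : F))
    (hR : PtBase A₀ q V R) (D : CuspData A₀ q V c s s' s'') (hs : s ∈ rad R)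
    (hT : Type1 V R q s s' s'') : Princ R (V 1) := by
  obtain ⟨hzR, hzlt, hη⟩ := hT.unit hb hU1 hram hR D hs
  have hA := hT.away
  have hq2 : 2 ≤ q := hb.prime.two_le
  have hle : ∀ r ∈ R, r ∈ V 1 := (hR.leLoc_of_away 1 hA).1
  have hz0 : s / s'' - 1 ≠ 0 := by
    intro h
    apply D.ne_s
    have := D.ne''
    field_simp at h
    linear_combination h
  have hvϖ0 : (V 1).valuation ϖm ≠ 0 := (Valuation.ne_zero_iff _).mpr hU1.ne_zero
  have hvq0 : (V 1).valuation (q : F) ≠ 0 := by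
    rw [← hram]
    exact pow_ne_zero _ hvϖ0
  have hqF : (q : F) ≠ 0 := (Valuation.ne_zero_iff _).mp hvq0
  -- `z` is a uniformiser
  have hvz : (V 1).valuation (s / s'' - 1) = (V 1).valuation ϖm := by
    have h1 := hη.val_eq_one hle
    rw [map_div₀, map_pow, div_eq_one_iff_eq hvq0, ← hram] at h1
    exact (pow_left_inj₀ zero_le zero_le (by omega : q - 1 ≠ 0)).1 h1
  refine ⟨s / s'' - 1, hzR, hz0, hzlt, fun r hr hrlt => ?_⟩
  apply hR.qep
  · have : (q : F) * (r / (s / s'' - 1)) =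
        r * (s / s'' - 1) ^ (q - 2) * ((s / s'' - 1) ^ (q - 1) / (q : F))⁻¹ := by
      have h1 : (s / s'' - 1) ^ (q - 1) = (s / s'' - 1) ^ (q - 2) * (s / s'' - 1) := by
        rw [← pow_succ]; congr 1; omega
      rw [h1]
      field_simp
    rw [this]
    exact R.mul_mem (R.mul_mem hr (R.pow_mem hzR _)) hη.inv_mem
  · intro i
    fin_cases i
    · exact Or.inr (hA 0 (by decide))
    · refine Or.inl ?_
      show r / (s / s'' - 1) ∈ V 1
      rw [mem_iff_val_le, map_div₀, hvz, div_le_one₀ (zero_lt_iff.mpr hvϖ0)]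
      exact approx_val_le_unif hU1 hrlt
    · exact Or.inr (hA 2 (by decide))

end Fermat.Agent.BAD.Model
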